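import Fermat.Agent.S55.Local.Defs
import Fermat.Prelude.Thm_Algebra_finite_maximalSpectrum_and_bijective_localization_of_module_finite
import Fermat.Prelude.Thm_IsLocalRing_isAdicComplete_of_module_finite

/-!
# S55, layer L, piece LF0 : the ring of integers of a local field

BASE `(A, F)`: complete DVR with finite residue field, fraction field `F` of characteristic `0`.
`L` a finite extension of `F`.  With `letI := algAL A F L` (the algebra structure `toL A F L`),
the ring of integers is `integralClosure A L` (`x ∈ integralClosure A L ↔ IsInt A F L x`);
we prove that it is a complete discrete valuation ring with fraction field `L`, finite as an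
`A`-module, with finite residue field, and that `A → integralClosure A L` is local.
-/

set_option autoImplicit false
set_option linter.style.haveILetI false
set_option linter.unusedSectionVars false
set_option linter.unusedVariables false

namespace Fermat.Agent.S55.Local.H363

open IsLocalRing

section Basic

variable (A F : Type) [CommRing A] [Field F] [Algebra A F]
variable (L : Type) [Field L] [Algebra F L]

/-- The `A`-algebra structure on `L` given by `toL A F L` (use with `letI`). -/
@[reducible] def algAL : Algebra A L := (toL A F L).toAlgebra

lemma isScalarTower_AFL : letI := algAL A F L; IsScalarTower A F L :=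
  letI := algAL A F L
  IsScalarTower.of_algebraMap_eq (fun _ => rfl)

/-- Membership in the integral closure (for the algebra structure `algAL`) is `IsInt`. -/
lemma mem_integralClosure_iff_isInt {x : L} :
    letI := algAL A F L
    x ∈ integralClosure A L ↔ IsInt A F L x := Iff.rfl

end Basic

section Domain

/-- A domain which is a finite product of nontrivial rings indexed by `ι` has `ι` subsingleton. -/
lemma subsingleton_of_bijective_pi {B : Type} [CommRing B] [IsDomain B] {ι : Type}
    (R : ι → Type) [∀ i, CommRing (R i)] [∀ i, Nontrivial (R i)]
    (f : B →+* (∀ i, R i)) (hf : Function.Bijective f) : Subsingleton ι := by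
  classical
  refine ⟨fun i j => ?_⟩
  by_contra hij
  obtain ⟨b, hb⟩ := hf.2 (Pi.single i (1 : R i))
  obtain ⟨c, hc⟩ := hf.2 (Pi.single j (1 : R j))
  have hbc : b * c = 0 := by
    apply hf.1
    rw [map_mul, hb, hc, map_zero]
    funext k
    by_cases hk : k = i
    · subst hk
      simp [Pi.single_eq_of_ne hij]
    · simp [Pi.single_eq_of_ne hk]
  rcases mul_eq_zero.1 hbc with h | h
  · have := congrFun hb i
    rw [h, map_zero] at this
    simp at this
  · have := congrFun hc j
    rw [h, map_zero] at this
    simp at this

end Domain

section Main

variable (A F : Type) [CommRing A] [IsDomain A] [IsDiscreteValuationRing A]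
    [IsAdicComplete (IsLocalRing.maximalIdeal A) A] [Finite (IsLocalRing.ResidueField A)]
    [Field F] [CharZero F] [Algebra A F] [IsFractionRing A F]
    (L : Type) [Field L] [Algebra F L] [FiniteDimensional F L]

lemma isSeparable_FL : Algebra.IsSeparable F L := inferInstance

/-- The integral closure of `A` in `L` is a finite `A`-module. -/
theorem finite_integralClosure :
    letI := algAL A F L
    Module.Finite A (integralClosure A L) := by
  letI := algAL A F L
  haveI := isScalarTower_AFL A F L
  exact IsIntegralClosure.finite A F L (integralClosure A L)

/-- The integral closure of `A` in `L` is a Dedekind domain. -/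
theorem isDedekindDomain_integralClosure :
    letI := algAL A F L
    IsDedekindDomain (integralClosure A L) := by
  letI := algAL A F L
  haveI := isScalarTower_AFL A F L
  exact integralClosure.isDedekindDomain A F L

/-- `L` is the fraction field of the integral closure of `A` in `L`. -/
theorem isFractionRing_integralClosure :
    letI := algAL A F L
    IsFractionRing (integralClosure A L) L := by
  letI := algAL A F L
  haveI := isScalarTower_AFL A F L
  exact integralClosure.isFractionRing_of_finite_extension F L

/-- The integral closure of `A` in `L` is a local ring. -/
theorem isLocalRing_integralClosure :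
    letI := algAL A F L
    IsLocalRing (integralClosure A L) := by
  letI := algAL A F L
  haveI := isScalarTower_AFL A F L
  haveI := finite_integralClosure A F L
  obtain ⟨-, hbij, -, -⟩ :=
    Algebra.finite_maximalSpectrum_and_bijective_localization_of_module_finite (𝒪 := A)
      (integralClosure A L)
  haveI : Subsingleton (MaximalSpectrum (integralClosure A L)) :=
    subsingleton_of_bijective_pi _ _ hbij
  obtain ⟨m, hm⟩ := Ideal.exists_maximal (integralClosure A L)
  exact IsLocalRing.of_unique_max_ideal ⟨m, hm, fun J hJ =>
    congrArg MaximalSpectrum.asIdeal (Subsingleton.elim (⟨J, hJ⟩ : MaximalSpectrum _) ⟨m, hm⟩)⟩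

/-- The integral closure of `A` in `L` is not a field. -/
theorem not_isField_integralClosure :
    letI := algAL A F L
    ¬ IsField (integralClosure A L) := by
  letI := algAL A F L
  haveI := isScalarTower_AFL A F L
  intro h
  have hinj : Function.Injective (algebraMap A (integralClosure A L)) := by
    intro a b hab
    have h1 : algebraMap A L a = algebraMap A L b := congrArg Subtype.val hab
    have h2 : algebraMap F L (algebraMap A F a) = algebraMap F L (algebraMap A F b) := h1
    exact IsFractionRing.injective A F ((algebraMap F L).injective h2)
  exact IsDiscreteValuationRing.not_isField A
    ((Algebra.IsIntegral.isField_iff_isField hinj).mpr h)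

/-- The integral closure of `A` in `L` is a discrete valuation ring. -/
theorem isDVR_integralClosure :
    letI := algAL A F L
    IsDiscreteValuationRing (integralClosure A L) := by
  letI := algAL A F L
  haveI := isLocalRing_integralClosure A F L
  haveI := isDedekindDomain_integralClosure A F L
  have h := (IsDiscreteValuationRing.TFAE (integralClosure A L)
    (not_isField_integralClosure A F L)).out 0 2
  exact h.mpr (isDedekindDomain_integralClosure A F L)

/-- `A → integralClosure A L` is a local homomorphism. -/
theorem isLocalHom_integralClosure :
    letI := algAL A F L
    IsLocalHom (algebraMap A (integralClosure A L)) := by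
  letI := algAL A F L
  haveI := isScalarTower_AFL A F L
  have hinj : Function.Injective (algebraMap A (integralClosure A L)) := by
    intro a b hab
    have h1 : algebraMap A L a = algebraMap A L b := congrArg Subtype.val hab
    have h2 : algebraMap F L (algebraMap A F a) = algebraMap F L (algebraMap A F b) := h1
    exact IsFractionRing.injective A F ((algebraMap F L).injective h2)
  have hint : Algebra.IsIntegral A (integralClosure A L) := inferInstance
  exact RingHom.IsIntegral.isLocalHom (algebraMap_isIntegral_iff.mpr hint) hinj

/-- The residue field of the integral closure of `A` in `L` is finite. -/
theorem finite_residueField_integralClosure :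
    letI := algAL A F L
    letI := isLocalRing_integralClosure A F L
    Finite (ResidueField (integralClosure A L)) := by
  letI := algAL A F L
  letI := isLocalRing_integralClosure A F L
  haveI := isLocalHom_integralClosure A F L
  haveI := finite_integralClosure A F L
  exact IsLocalRing.ResidueField.finite_of_finite (R := A) inferInstance

/-- The integral closure of `A` in `L` is complete for its maximal ideal. -/
theorem isAdicComplete_integralClosure :
    letI := algAL A F L
    letI := isLocalRing_integralClosure A F L
    IsAdicComplete (maximalIdeal (integralClosure A L)) (integralClosure A L) := by
  letI := algAL A F L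
  letI := isLocalRing_integralClosure A F L
  haveI := isLocalHom_integralClosure A F L
  haveI := finite_integralClosure A F L
  exact IsLocalRing.isAdicComplete_of_module_finite (𝒪 := A)

end Main

end Fermat.Agent.S55.Local.H363
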